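import Fermat.Agent.TwoAdic.Removal.Lift.Core
import Fermat.Agent.TwoAdic.ClassNumber.ModularIsFrob
import Fermat.Agent.TwoAdic.ClassNumber.Bound

/-!
# LT2 P8: `2`-power torsion of the special fibre lifts

The special fibre has at most `2 ^ (2 g k)` classes killed by `2 ^ k`; reduction is injective on
torsion prime to `ℓ`, and the generic fibre has exactly that many.

Owner: helper53 (bound: helper45, `TwoAdic/ClassNumber/Bound`).
-/

set_option autoImplicit false

noncomputable section

open ModularCurve AlgebraicCurve Fermat.Agent.Curve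

namespace Fermat.Agent.TwoAdic.Removal

set_option synthInstance.maxHeartbeats 80000 in
open Fermat.Agent.TwoAdic.ClassNumber in
/-- The bound on the special fibre. -/
theorem natCard_residue_torsion_le (N : ℕ) [NeZero N] {ℓ : ℕ} [Fact ℓ.Prime]
    (A : ValuationSubring (AlgebraicClosure ℚ)) (hA : A.LiesOverPrime ℓ) (k : ℕ) :
    Finite (Pic0.torsion (IsLocalRing.ResidueField A)
      (modularFunctionFieldFullC (IsLocalRing.ResidueField A) N) (2 ^ k)) ∧
    Nat.card (Pic0.torsion (IsLocalRing.ResidueField A)
      (modularFunctionFieldFullC (IsLocalRing.ResidueField A) N) (2 ^ k)) ≤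
        2 ^ (2 * genusFF (IsLocalRing.ResidueField A)
          (modularFunctionFieldFullC (IsLocalRing.ResidueField A) N) * k) := by
  have : IsAlgClosed (IsLocalRing.ResidueField A) := EC.isAlgClosed_residueField A
  have : CharP (IsLocalRing.ResidueField A) ℓ := EC.charP_residueField A Fact.out hA
  obtain ⟨g, hg⟩ := exists_isFrob_residueField A hA N
  exact hg.natCard_torsion_le Nat.prime_two k

/-- Every `2`-power torsion class of `X₀(N)` over the residue field at an odd prime `ℓ ∤ N` is the
reduction of a torsion class with the same order bound. -/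
theorem exists_torsion_lift (N : ℕ) [NeZero N] {ℓ : ℕ} [Fact ℓ.Prime] (hℓN : ¬ ℓ ∣ N)
    (hℓ5 : 5 ≤ ℓ) (A : ValuationSubring (AlgebraicClosure ℚ)) (hA : A.LiesOverPrime ℓ)
    (k : ℕ) (z : JZeroC (IsLocalRing.ResidueField A) N) (hz : 2 ^ k • z = 0) :
    ∃ x : JZero N, 2 ^ k • x = 0 ∧ reductionModL A N x = z :=
  have : Fact (Nat.Prime 2) := ⟨Nat.prime_two⟩
  exists_torsion_lift_of_card_le N hℓN hℓ5 A hA (p := 2) (by omega) k
    (natCard_residue_torsion_le N A hA k).1 (natCard_residue_torsion_le N A hA k).2
    z hz

end Fermat.Agent.TwoAdic.Removal
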