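import Fermat.Agent.S18
import Fermat.Agent.S27
import Fermat.Agent.Reduction.Inputs
import Fermat.Agent.Reduction.ModularData

/-!
# Lifting prime-to-`ℓ` torsion of the special fibre, from a bound on its cardinality

Reduction is injective on prime-to-`ℓ` torsion and the generic fibre has `p ^ (2 g k)` classes
killed by `p ^ k`, so it is bijective as soon as the special fibre has no more.
-/

set_option autoImplicit false

noncomputable section

open ModularCurve AlgebraicCurve

namespace Fermat.Agent.TwoAdic.Removal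

open Fermat.Agent.Reduction Fermat.Agent.Curve in
/-- If the special fibre has at most `p ^ (2 g k)` classes killed by `p ^ k`, with `g` its genus,
every one of them is the reduction of a class killed by `p ^ k`. -/
theorem exists_torsion_lift_of_card_le (N : ℕ) [NeZero N] {ℓ : ℕ} [Fact ℓ.Prime] (hℓN : ¬ ℓ ∣ N)
    (hℓ5 : 5 ≤ ℓ) (A : ValuationSubring (AlgebraicClosure ℚ)) (hA : A.LiesOverPrime ℓ)
    {p : ℕ} [Fact p.Prime] (hpℓ : p ≠ ℓ) (k : ℕ)
    (hfin : Finite (Pic0.torsion (IsLocalRing.ResidueField A)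
      (modularFunctionFieldFullC (IsLocalRing.ResidueField A) N) (p ^ k)))
    (hcard : Nat.card (Pic0.torsion (IsLocalRing.ResidueField A)
      (modularFunctionFieldFullC (IsLocalRing.ResidueField A) N) (p ^ k)) ≤
        p ^ (2 * genusFF (IsLocalRing.ResidueField A)
          (modularFunctionFieldFullC (IsLocalRing.ResidueField A) N) * k))
    (z : JZeroC (IsLocalRing.ResidueField A) N) (hz : p ^ k • z = 0) :
    ∃ x : JZero N, p ^ k • x = 0 ∧ reductionModL A N x = z := by
  have : IsAlgClosed (IsLocalRing.ResidueField A) := EC.isAlgClosed_residueField A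
  have hN : (ℓ = 2 → 3 ∣ N) ∧ (ℓ = 3 → 2 ∣ N) :=
    ⟨fun h => absurd h (by omega), fun h => absurd h (by omega)⟩
  have hin : ReductionInputsModL A N := reductionInputsModL N hℓN A hA hN
  have hpℓ' : ¬ ℓ ∣ p ^ k := fun h =>
    hpℓ ((Nat.prime_dvd_prime_iff_eq Fact.out Fact.out).1
      ((Fact.out : ℓ.Prime).dvd_of_dvd_pow h)).symm
  have hgenus := (gaussDataX0 N hℓN A hA).genusFF_le
  have hsrc := Fermat.Agent.S27.result (AlgebraicClosure ℚ) (modularFunctionFieldBar N) p k
  let f : Pic0.torsion (AlgebraicClosure ℚ) (modularFunctionFieldBar N) (p ^ k) →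
      Pic0.torsion (IsLocalRing.ResidueField A)
        (modularFunctionFieldFullC (IsLocalRing.ResidueField A) N) (p ^ k) := fun x =>
    ⟨reductionModL A N x.1, Pic0.mem_torsion.2 (by
      rw [← map_zsmul, Pic0.mem_torsion.1 x.2, map_zero])⟩
  have hinj : Function.Injective f := fun x y hxy => by
    have h0 : reductionModL A N (x.1 - y.1) = 0 := by
      rw [map_sub, sub_eq_zero]; exact congrArg Subtype.val hxy
    refine Subtype.ext (sub_eq_zero.1 ?_)
    refine Fermat.Agent.S18.result N hℓN A hA hin (p ^ k) hpℓ' _ ?_ h0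
    rw [← natCast_zsmul, zsmul_sub, Pic0.mem_torsion.1 x.2, Pic0.mem_torsion.1 y.2, sub_zero]
  have hbij : Function.Bijective f := by
    refine hinj.bijective_of_nat_card_le (le_trans hcard ?_)
    rw [hsrc]
    exact Nat.pow_le_pow_right (Fact.out : p.Prime).pos
      (Nat.mul_le_mul_right _ (Nat.mul_le_mul_left _ hgenus))
  obtain ⟨x, hx⟩ := hbij.2 ⟨z, Pic0.mem_torsion.2 (by rwa [natCast_zsmul])⟩
  refine ⟨x.1, ?_, congrArg Subtype.val hx⟩
  rw [← natCast_zsmul]
  exact Pic0.mem_torsion.1 x.2

end Fermat.Agent.TwoAdic.Removal
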